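/-
S55 / 36a-UNR-BRIDGE, part (I) (helper42): the inertia subgroup of the local Galois group
`G_q = Gal(ℚ̄_q/ℚ_q)` in NORM language, and its comparison with the Prelude inertia group of
`padicPlace q`.

* `localInertia q : Subgroup G_q`, `mem_localInertia`, `localInertia_normal`;
* `mem_nonunits_padicPlace_iff`, `liesOverPrime_padicPlace`;
* `exists_padicEmbedding_norm_sub_lt` : `ι(ℚ̄)` is dense in `PadicAlgCl q`;
* `mem_inertiaSubgroupIn_iff_forall` : unfolding of the Prelude inertia group;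
* `localGaloisToGlobal_mem_inertiaSubgroupIn_iff`, `map_localInertia`.
No sorry.
-/
import Mathlib
import Fermat.Prelude.Def_GaloisRep_CompletionBridge
import Fermat.Agent.S55.Krasner81
import Fermat.Agent.S55.ProfinLoc80.Decomp

set_option autoImplicit false

open scoped NNReal Pointwise
open IntermediateField

noncomputable section

namespace Fermat.Agent.S55.UnrBridge42

open Fermat.Agent.S55.ProfinLoc80

variable (q : ℕ) [Fact q.Prime]

/-! ### isometry and ultrametric helpers -/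

theorem norm_algEquiv (τ : PadicAlgCl q ≃ₐ[ℚ_[q]] PadicAlgCl q) (y : PadicAlgCl q) :
    ‖τ y‖ = ‖y‖ := by
  have := nnnorm_padicAlgCl_algEquiv q τ y
  exact congrArg NNReal.toReal this

theorem norm_add_lt_one {x y : PadicAlgCl q} (hx : ‖x‖ < 1) (hy : ‖y‖ < 1) : ‖x + y‖ < 1 :=
  lt_of_le_of_lt (PadicAlgCl.isNonarchimedean q x y) (max_lt hx hy)

theorem norm_sub_lt_one {x y : PadicAlgCl q} (hx : ‖x‖ < 1) (hy : ‖y‖ < 1) : ‖x - y‖ < 1 := by
  rw [sub_eq_add_neg]
  exact norm_add_lt_one q hx (by rwa [norm_neg])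

theorem norm_add_le_one {x y : PadicAlgCl q} (hx : ‖x‖ ≤ 1) (hy : ‖y‖ ≤ 1) : ‖x + y‖ ≤ 1 :=
  le_trans (PadicAlgCl.isNonarchimedean q x y) (max_le hx hy)

/-! ### the local inertia group -/

/-- The inertia subgroup of `G_q = Gal(ℚ̄_q/ℚ_q)`: automorphisms acting trivially on the residue
field of `ℚ̄_q`. -/
def localInertia : Subgroup (PadicAlgCl q ≃ₐ[ℚ_[q]] PadicAlgCl q) where
  carrier := {τ | ∀ x : PadicAlgCl q, ‖x‖ ≤ 1 → ‖τ x - x‖ < 1}
  one_mem' := fun x _ => by simp
  mul_mem' := by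
    intro τ σ hτ hσ x hx
    have h1 : ‖σ x - x‖ < 1 := hσ x hx
    have h2 : ‖τ (σ x) - σ x‖ < 1 := hτ (σ x) (by rwa [norm_algEquiv])
    have : (τ * σ) x - x = (τ (σ x) - σ x) + (σ x - x) := by
      rw [AlgEquiv.mul_apply]; ring
    rw [this]
    exact norm_add_lt_one q h2 h1
  inv_mem' := by
    intro τ hτ x hx
    have h1 : ‖τ (τ⁻¹ x) - τ⁻¹ x‖ < 1 := hτ (τ⁻¹ x) (by rwa [norm_algEquiv])
    have h2 : τ (τ⁻¹ x) = x := by
      rw [← AlgEquiv.mul_apply, mul_inv_cancel, AlgEquiv.one_apply]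
    rw [h2, ← norm_neg, neg_sub] at h1
    exact h1

theorem mem_localInertia {τ : PadicAlgCl q ≃ₐ[ℚ_[q]] PadicAlgCl q} :
    τ ∈ localInertia q ↔ ∀ x : PadicAlgCl q, ‖x‖ ≤ 1 → ‖τ x - x‖ < 1 := Iff.rfl

instance localInertia_normal : (localInertia q).Normal where
  conj_mem := by
    intro τ hτ g x hx
    have h1 : ‖τ (g⁻¹ x) - g⁻¹ x‖ < 1 := hτ (g⁻¹ x) (by rwa [norm_algEquiv])
    have h2 : (g * τ * g⁻¹) x - x = g (τ (g⁻¹ x) - g⁻¹ x) := by
      rw [map_sub, AlgEquiv.mul_apply, AlgEquiv.mul_apply]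
      congr 1
      rw [← AlgEquiv.mul_apply, mul_inv_cancel, AlgEquiv.one_apply]
    rw [h2, norm_algEquiv]
    exact h1

/-! ### the place `padicPlace q` -/

theorem mem_padicPlace_iff_norm {x : AlgebraicClosure ℚ} :
    x ∈ padicPlace q ↔ ‖padicEmbedding q x‖ ≤ 1 := by
  rw [mem_padicPlace_iff, ← NNReal.coe_le_coe]
  rfl

theorem mem_nonunits_padicPlace_iff {x : AlgebraicClosure ℚ} :
    x ∈ (padicPlace q).nonunits ↔ ‖padicEmbedding q x‖ < 1 := by
  rw [ValuationSubring.mem_nonunits_iff_exists_mem_maximalIdeal]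
  constructor
  · rintro ⟨hx, hmem⟩
    by_cases hx0 : x = 0
    · simp [hx0]
    have hnu : ¬ IsUnit (⟨x, hx⟩ : padicPlace q) :=
      (IsLocalRing.mem_maximalIdeal _).mp hmem
    have hinv : x⁻¹ ∉ padicPlace q := by
      intro hi
      apply hnu
      refine ⟨⟨⟨x, hx⟩, ⟨x⁻¹, hi⟩, ?_, ?_⟩, rfl⟩
      · ext; exact mul_inv_cancel₀ hx0
      · ext; exact inv_mul_cancel₀ hx0
    rw [mem_padicPlace_iff_norm, map_inv₀, norm_inv, not_le] at hinv
    have hpos : 0 < ‖padicEmbedding q x‖ :=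
      norm_pos_iff.mpr ((map_ne_zero _).mpr hx0)
    exact (one_lt_inv₀ hpos).mp hinv
  · intro h
    have hx : x ∈ padicPlace q := (mem_padicPlace_iff_norm q).mpr h.le
    refine ⟨hx, ?_⟩
    rw [IsLocalRing.mem_maximalIdeal, mem_nonunits_iff]
    rintro ⟨u, hu⟩
    have h1 : (u : padicPlace q) * ((u⁻¹ : (padicPlace q)ˣ) : padicPlace q) = 1 := u.mul_inv
    have h2 : x * (((u⁻¹ : (padicPlace q)ˣ) : padicPlace q) : AlgebraicClosure ℚ) = 1 := by
      have := congrArg (fun z : padicPlace q => (z : AlgebraicClosure ℚ)) h1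
      simpa [hu] using this
    have h3 := congrArg (fun z => ‖padicEmbedding q z‖) h2
    simp only [map_mul, norm_mul, map_one, norm_one] at h3
    have h4 : ‖padicEmbedding q (((u⁻¹ : (padicPlace q)ˣ) : padicPlace q) :
        AlgebraicClosure ℚ)‖ ≤ 1 :=
      (mem_padicPlace_iff_norm q).mp (SetLike.coe_mem _)
    have h5 : 0 ≤ ‖padicEmbedding q x‖ := norm_nonneg _
    nlinarith [mul_le_mul_of_nonneg_left h4 h5]

theorem liesOverPrime_padicPlace : (padicPlace q).LiesOverPrime q := by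
  show ((q : ℕ) : AlgebraicClosure ℚ) ∈ (padicPlace q).nonunits
  rw [mem_nonunits_padicPlace_iff, map_natCast, norm_natCast_q]
  exact inv_lt_one_of_one_lt₀ (one_lt_q q)

/-! ### density of `ι(ℚ̄)` -/

theorem exists_padicEmbedding_norm_sub_lt (x : PadicAlgCl q) {ε : ℝ} (hε : 0 < ε) :
    ∃ a : AlgebraicClosure ℚ, ‖x - padicEmbedding q a‖ < ε := by
  obtain ⟨b, hb⟩ := Krasner81.exists_mem_adjoin_padicEmbedding q x
  have hle : ℚ_[q]⟮padicEmbedding q b⟯ ≤ localLevel q ℚ⟮b⟯ := by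
    rw [IntermediateField.adjoin_simple_le_iff]
    exact padicEmbedding_mem_localLevel q ℚ⟮b⟯ ⟨b, IntermediateField.mem_adjoin_simple_self ℚ b⟩
  obtain ⟨a, ha⟩ := exists_norm_sub_lt q ℚ⟮b⟯ (hle hb) hε
  exact ⟨a, ha⟩

/-! ### unfolding the Prelude inertia group -/

theorem mem_inertiaSubgroupIn_iff_forall {K L : Type*} [Field K] [Field L] [Algebra K L]
    (A : ValuationSubring L) (τ : L ≃ₐ[K] L) :
    τ ∈ A.inertiaSubgroupIn K ↔
      τ ∈ A.decompositionSubgroup K ∧ ∀ a : L, a ∈ A → τ a - a ∈ A.nonunits := by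
  constructor
  · rintro ⟨d, hd, rfl⟩
    refine ⟨d.2, fun a ha => ?_⟩
    have hd' : d ∈ A.inertiaSubgroup K := hd
    rw [ValuationSubring.inertiaSubgroup, MonoidHom.mem_ker] at hd'
    have h1 : d • (IsLocalRing.residue A ⟨a, ha⟩) = IsLocalRing.residue A ⟨a, ha⟩ := by
      have := congrArg (fun f : RingAut (IsLocalRing.ResidueField A) =>
        f (IsLocalRing.residue A ⟨a, ha⟩)) hd'
      exact this
    rw [← IsLocalRing.ResidueField.residue_smul, ← sub_eq_zero, ← map_sub,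
      IsLocalRing.residue_eq_zero_iff, ← A.coe_mem_nonunits_iff] at h1
    exact h1
  · rintro ⟨hdec, h⟩
    refine ⟨⟨τ, hdec⟩, ?_, rfl⟩
    show (⟨τ, hdec⟩ : A.decompositionSubgroup K) ∈ A.inertiaSubgroup K
    rw [ValuationSubring.inertiaSubgroup, MonoidHom.mem_ker]
    ext y
    obtain ⟨a, rfl⟩ := IsLocalRing.residue_surjective y
    show (⟨τ, hdec⟩ : A.decompositionSubgroup K) • (IsLocalRing.residue A a) =
      IsLocalRing.residue A a
    rw [← IsLocalRing.ResidueField.residue_smul, ← sub_eq_zero, ← map_sub,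
      IsLocalRing.residue_eq_zero_iff, ← A.coe_mem_nonunits_iff]
    exact h a a.2

/-! ### (B1) local inertia versus the Prelude inertia group of `padicPlace q` -/

theorem localGaloisToGlobal_mem_inertiaSubgroupIn_iff
    (τ : PadicAlgCl q ≃ₐ[ℚ_[q]] PadicAlgCl q) :
    localGaloisToGlobal q τ ∈ (padicPlace q).inertiaSubgroupIn ℚ ↔ τ ∈ localInertia q := by
  rw [mem_inertiaSubgroupIn_iff_forall]
  constructor
  · rintro ⟨-, h⟩ x hx
    obtain ⟨a, ha⟩ := exists_padicEmbedding_norm_sub_lt q x (ε := 1) one_pos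
    have ha1 : ‖padicEmbedding q a‖ ≤ 1 := by
      have : padicEmbedding q a = x + (padicEmbedding q a - x) := by ring
      rw [this]
      refine norm_add_le_one q hx ?_
      rw [← norm_neg, neg_sub]
      exact ha.le
    have h1 := h a ((mem_padicPlace_iff_norm q).mpr ha1)
    rw [mem_nonunits_padicPlace_iff, map_sub, padicEmbedding_localGaloisToGlobal] at h1
    have h2 : τ x - x = τ (x - padicEmbedding q a) +
        ((τ (padicEmbedding q a) - padicEmbedding q a) + (padicEmbedding q a - x)) := by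
      rw [map_sub]; ring
    rw [h2]
    refine norm_add_lt_one q (by rwa [norm_algEquiv]) (norm_add_lt_one q h1 ?_)
    rw [← norm_neg, neg_sub]
    exact ha
  · intro h
    refine ⟨localGaloisToGlobal_mem_decompositionSubgroup q τ, fun a ha => ?_⟩
    rw [mem_nonunits_padicPlace_iff, map_sub, padicEmbedding_localGaloisToGlobal]
    exact h _ ((mem_padicPlace_iff_norm q).mp ha)

theorem map_localInertia :
    (localInertia q).map (localGaloisToGlobal q) = (padicPlace q).inertiaSubgroupIn ℚ := by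
  ext σ
  constructor
  · rintro ⟨τ, hτ, rfl⟩
    exact (localGaloisToGlobal_mem_inertiaSubgroupIn_iff q τ).mpr hτ
  · intro hσ
    have hdec : σ ∈ (padicPlace q).decompositionSubgroup ℚ :=
      ((mem_inertiaSubgroupIn_iff_forall _ σ).mp hσ).1
    rw [← range_localGaloisToGlobal] at hdec
    obtain ⟨τ, rfl⟩ := hdec
    exact ⟨τ, (localGaloisToGlobal_mem_inertiaSubgroupIn_iff q τ).mp hσ, rfl⟩

theorem comap_inertiaSubgroupIn :
    ((padicPlace q).inertiaSubgroupIn ℚ).comap (localGaloisToGlobal q) = localInertia q := by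
  ext τ
  exact localGaloisToGlobal_mem_inertiaSubgroupIn_iff q τ

end Fermat.Agent.S55.UnrBridge42
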