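/-
S55 / 36a-UNR-BRIDGE, part (M) (helper42): the maximal unramified extension of `ℚ_q` inside
`PadicAlgCl q` and the inertia group.

* `primeToRoots q`, `maxUnr q = ℚ_q(prime-to-q roots of unity)`;
* `eq_one_of_norm_sub_one_lt` : prime-to-`q` roots of unity are distinct modulo the maximal ideal;
* `exists_pow_sub_one_lt`, `exists_rootOfUnity_norm_sub_lt` : Teichmüller representatives in `ℚ̄_q`;
* `localInertia_eq_fixingSubgroup_maxUnr`, `le_maxUnr_iff`;
* `exists_le_adjoin_rootOfUnity` : finite subextensions of `maxUnr q` are contained in `ℚ_q(ζ_m)`.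
No sorry.
-/
import Mathlib
import Fermat.Agent.S55.UnrBridge42.Inertia

set_option autoImplicit false
set_option linter.style.haveILetI false

open scoped NNReal Pointwise
open IntermediateField

noncomputable section

namespace Fermat.Agent.S55.UnrBridge42

open Fermat.Agent.S55.ProfinLoc80

variable (q : ℕ) [Fact q.Prime]

/-! ### norms of integers and roots of unity -/

theorem norm_natCast_of_coprime {m : ℕ} (hm : m.Coprime q) : ‖(m : PadicAlgCl q)‖ = 1 := by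
  rw [← map_natCast (algebraMap ℚ_[q] (PadicAlgCl q)), PadicAlgCl.norm_extends]
  exact Padic.norm_natCast_eq_one_iff.mpr hm.symm

theorem norm_natCast_le_one (m : ℕ) : ‖(m : PadicAlgCl q)‖ ≤ 1 := by
  rw [← map_natCast (algebraMap ℚ_[q] (PadicAlgCl q)), PadicAlgCl.norm_extends]
  exact_mod_cast Padic.norm_int_le_one (p := q) (m : ℤ)

theorem norm_q_lt_one : ‖(q : PadicAlgCl q)‖ < 1 := by
  rw [norm_natCast_q]
  exact inv_lt_one_of_one_lt₀ (one_lt_q q)

theorem norm_eq_one_of_pow_eq_one {ζ : PadicAlgCl q} {m : ℕ} (hm : 0 < m) (h : ζ ^ m = 1) :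
    ‖ζ‖ = 1 := by
  have h1 : ‖ζ‖ ^ m = 1 := by rw [← norm_pow, h, norm_one]
  exact (pow_eq_one_iff_of_nonneg (norm_nonneg _) hm.ne').mp h1

theorem norm_sum_lt_one {ι : Type*} (s : Finset ι) (f : ι → PadicAlgCl q)
    (h : ∀ i ∈ s, ‖f i‖ < 1) : ‖∑ i ∈ s, f i‖ < 1 := by
  classical
  induction s using Finset.induction_on with
  | empty => simp
  | insert a s ha ih =>
    rw [Finset.sum_insert ha]
    exact norm_add_lt_one q (h a (Finset.mem_insert_self a s))
      (ih fun i hi => h i (Finset.mem_insert_of_mem hi))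

theorem norm_pow_sub_one_lt {ξ : PadicAlgCl q} (hξ : ‖ξ‖ ≤ 1) (h : ‖ξ - 1‖ < 1) (i : ℕ) :
    ‖ξ ^ i - 1‖ < 1 := by
  induction i with
  | zero => simp
  | succ i ih =>
    have : ξ ^ (i + 1) - 1 = ξ ^ i * (ξ - 1) + (ξ ^ i - 1) := by ring
    rw [this]
    refine norm_add_lt_one q ?_ ih
    rw [norm_mul, norm_pow]
    calc ‖ξ‖ ^ i * ‖ξ - 1‖ ≤ 1 * ‖ξ - 1‖ :=
          mul_le_mul_of_nonneg_right (pow_le_one₀ (norm_nonneg _) hξ) (norm_nonneg _)
      _ < 1 := by rwa [one_mul]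

/-- Distinct prime-to-`q` roots of unity are incongruent modulo the maximal ideal. -/
theorem eq_one_of_norm_sub_one_lt {ξ : PadicAlgCl q} {m : ℕ} (hm : m.Coprime q)
    (h : ξ ^ m = 1) (hlt : ‖ξ - 1‖ < 1) : ξ = 1 := by
  by_contra hne
  have hm0 : 0 < m := by
    rcases Nat.eq_zero_or_pos m with rfl | h0
    · rw [Nat.coprime_zero_left] at hm
      exact absurd hm (Fact.out : q.Prime).one_lt.ne'
    · exact h0
  have hξ1 : ‖ξ‖ = 1 := norm_eq_one_of_pow_eq_one q hm0 h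
  have hgeom : (∑ i ∈ Finset.range m, ξ ^ i) * (ξ - 1) = 0 := by
    rw [geom_sum_mul, h, sub_self]
  have hsum : ∑ i ∈ Finset.range m, ξ ^ i = 0 := by
    rcases mul_eq_zero.mp hgeom with h0 | h0
    · exact h0
    · exact absurd (sub_eq_zero.mp h0) hne
  have hm_eq : (m : PadicAlgCl q) = ∑ i ∈ Finset.range m, (1 - ξ ^ i) := by
    rw [Finset.sum_sub_distrib, hsum, sub_zero, Finset.sum_const, Finset.card_range,
      nsmul_eq_mul, mul_one]
  have hlt' : ‖(m : PadicAlgCl q)‖ < 1 := by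
    rw [hm_eq]
    refine norm_sum_lt_one q _ _ fun i _ => ?_
    rw [← norm_neg, neg_sub]
    exact norm_pow_sub_one_lt q hξ1.le hlt i
  rw [norm_natCast_of_coprime q hm] at hlt'
  exact lt_irrefl _ hlt'

/-! ### the maximal unramified extension -/

/-- The prime-to-`q` roots of unity of `ℚ̄_q`. -/
def primeToRoots : Set (PadicAlgCl q) := {ζ | ∃ m : ℕ, 0 < m ∧ m.Coprime q ∧ ζ ^ m = 1}

/-- The maximal unramified extension of `ℚ_q` inside `PadicAlgCl q`. -/
def maxUnr : IntermediateField ℚ_[q] (PadicAlgCl q) :=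
  IntermediateField.adjoin ℚ_[q] (primeToRoots q)

theorem mem_maxUnr_of_pow_eq_one {ζ : PadicAlgCl q} {m : ℕ} (hm0 : 0 < m) (hm : m.Coprime q)
    (h : ζ ^ m = 1) : ζ ∈ maxUnr q :=
  IntermediateField.subset_adjoin _ _ ⟨m, hm0, hm, h⟩

theorem mem_fixingSubgroup_adjoin_of_forall {K E : Type*} [Field K] [Field E] [Algebra K E]
    (S : Set E) (τ : E ≃ₐ[K] E) (h : ∀ s ∈ S, τ s = s) :
    τ ∈ (IntermediateField.adjoin K S).fixingSubgroup := by
  rw [IntermediateField.mem_fixingSubgroup_iff]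
  intro y hy
  induction hy using IntermediateField.adjoin_induction with
  | mem y hy => exact h y hy
  | algebraMap c => exact τ.commutes c
  | add y z _ _ hy hz => rw [map_add, hy, hz]
  | inv y _ hy => rw [map_inv₀, hy]
  | mul y z _ _ hy hz => rw [map_mul, hy, hz]

theorem localInertia_le_fixingSubgroup_maxUnr :
    localInertia q ≤ (maxUnr q).fixingSubgroup := by
  intro τ hτ
  refine mem_fixingSubgroup_adjoin_of_forall _ τ ?_
  rintro ζ ⟨m, hm0, hm, hζ⟩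
  have hζ1 : ‖ζ‖ = 1 := norm_eq_one_of_pow_eq_one q hm0 hζ
  have hζ0 : ζ ≠ 0 := by
    rintro rfl
    simp at hζ1
  have h1 : ‖τ ζ - ζ‖ < 1 := hτ ζ hζ1.le
  have h2 : (τ ζ * ζ⁻¹) ^ m = 1 := by
    rw [mul_pow, ← map_pow, inv_pow, hζ, map_one, inv_one, mul_one]
  have h3 : ‖τ ζ * ζ⁻¹ - 1‖ < 1 := by
    have : τ ζ * ζ⁻¹ - 1 = (τ ζ - ζ) * ζ⁻¹ := by
      field_simp
    rw [this, norm_mul, norm_inv, hζ1, inv_one, mul_one]
    exact h1
  have h4 := eq_one_of_norm_sub_one_lt q hm h2 h3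
  field_simp at h4
  exact h4

/-! ### Teichmüller representatives -/

/-- two powers of a unit of `ℚ̄_q` are congruent modulo the maximal ideal (compactness). -/
theorem exists_pow_sub_one_lt {x : PadicAlgCl q} (hx : ‖x‖ = 1) :
    ∃ m : ℕ, 0 < m ∧ ‖x ^ m - 1‖ < 1 := by
  have hxint : IsIntegral ℚ_[q] x := (PadicAlgCl.isAlgebraic q).isIntegral.isIntegral x
  haveI : FiniteDimensional ℚ_[q] ℚ_[q]⟮x⟯ := IntermediateField.adjoin.finiteDimensional hxint
  let V : Submodule ℚ_[q] (PadicAlgCl q) := Subalgebra.toSubmodule (ℚ_[q]⟮x⟯).toSubalgebra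
  haveI : FiniteDimensional ℚ_[q] V := ‹FiniteDimensional ℚ_[q] ℚ_[q]⟮x⟯›
  haveI : ProperSpace V := FiniteDimensional.proper ℚ_[q] V
  have hxV : ∀ j : ℕ, x ^ j ∈ V := fun j =>
    pow_mem (IntermediateField.mem_adjoin_simple_self ℚ_[q] x) j
  let u : ℕ → V := fun j => ⟨x ^ j, hxV j⟩
  have hu : ∀ j, u j ∈ Metric.closedBall (0 : V) 1 := by
    intro j
    rw [mem_closedBall_zero_iff]
    show ‖x ^ j‖ ≤ 1
    rw [norm_pow, hx, one_pow]
  obtain ⟨a, -, φ, hφ, hlim⟩ := (isCompact_closedBall (0 : V) 1).tendsto_subseq hu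
  rw [Metric.tendsto_atTop] at hlim
  obtain ⟨N, hN⟩ := hlim (1 / 2) (by norm_num)
  have h1 := hN N le_rfl
  have h2 := hN (N + 1) (Nat.le_succ N)
  have h3 : dist (u (φ (N + 1))) (u (φ N)) < 1 := by
    calc dist (u (φ (N + 1))) (u (φ N)) ≤ dist (u (φ (N + 1))) a + dist a (u (φ N)) :=
          dist_triangle _ _ _
      _ < 1 / 2 + 1 / 2 := by
          rw [dist_comm a]
          exact add_lt_add h2 h1
      _ = 1 := by norm_num
  have hlt : φ N < φ (N + 1) := hφ (Nat.lt_succ_self N)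
  refine ⟨φ (N + 1) - φ N, Nat.sub_pos_of_lt hlt, ?_⟩
  have h4 : ‖x ^ φ (N + 1) - x ^ φ N‖ < 1 := by
    have : dist (u (φ (N + 1))) (u (φ N)) = ‖x ^ φ (N + 1) - x ^ φ N‖ := by
      rw [dist_eq_norm]; rfl
    rwa [this] at h3
  have h5 : x ^ φ (N + 1) - x ^ φ N = x ^ φ N * (x ^ (φ (N + 1) - φ N) - 1) := by
    rw [mul_sub, ← pow_add, Nat.add_sub_cancel' hlt.le, mul_one]
  rw [h5, norm_mul, norm_pow, hx, one_pow, one_mul] at h4
  exact h4

/-- `‖y ^ (q ^ a) - 1‖ < 1 ⇒ ‖y - 1‖ < 1` (the residue field has characteristic `q`). -/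
theorem norm_sub_one_lt_of_pow_prime_pow {y : PadicAlgCl q} (hy : ‖y‖ ≤ 1) (a : ℕ)
    (h : ‖y ^ q ^ a - 1‖ < 1) : ‖y - 1‖ < 1 := by
  have hε : ‖y - 1‖ ≤ 1 := by
    rw [sub_eq_add_neg]
    exact norm_add_le_one q hy (by rw [norm_neg, norm_one])
  let O : Subring (PadicAlgCl q) := (padicIntegers q).toSubring
  have hmemO : ∀ z : PadicAlgCl q, z ∈ O ↔ ‖z‖ ≤ 1 := fun z => by
    show z ∈ padicIntegers q ↔ _
    rw [mem_padicIntegers_iff, ← NNReal.coe_le_coe]
    rfl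
  let ε : O := ⟨y - 1, (hmemO _).mpr hε⟩
  obtain ⟨r, hr⟩ := exists_add_pow_prime_pow_eq (Fact.out : q.Prime) ε (1 : O) a
  have hr' := congrArg (fun z : O => (z : PadicAlgCl q)) hr
  simp only [Subring.coe_add, Subring.coe_pow, Subring.coe_mul, Subring.coe_one,
    Subring.coe_natCast, one_pow, mul_one] at hr'
  have hε' : ((ε : O) : PadicAlgCl q) = y - 1 := rfl
  rw [hε', sub_add_cancel] at hr'
  have hkey : (y - 1) ^ q ^ a = (y ^ q ^ a - 1) - (q : PadicAlgCl q) * (y - 1) * (r : PadicAlgCl q) := by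
    rw [hr']; ring
  have hr1 : ‖(r : PadicAlgCl q)‖ ≤ 1 := (hmemO _).mp r.2
  have h2 : ‖(q : PadicAlgCl q) * (y - 1) * (r : PadicAlgCl q)‖ < 1 := by
    rw [norm_mul, norm_mul]
    have hq := norm_q_lt_one q
    have := mul_le_one₀ hε (norm_nonneg _) hr1
    calc ‖(q : PadicAlgCl q)‖ * ‖y - 1‖ * ‖(r : PadicAlgCl q)‖
        = ‖(q : PadicAlgCl q)‖ * (‖y - 1‖ * ‖(r : PadicAlgCl q)‖) := by ring
      _ ≤ ‖(q : PadicAlgCl q)‖ * 1 := mul_le_mul_of_nonneg_left this (norm_nonneg _)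
      _ < 1 := by rwa [mul_one]
  have h3 : ‖(y - 1) ^ q ^ a‖ < 1 := by
    rw [hkey]
    exact norm_sub_lt_one q h h2
  rw [norm_pow] at h3
  by_contra hge
  rw [not_lt] at hge
  exact absurd h3 (not_lt.mpr (one_le_pow₀ hge))

/-- **Teichmüller representatives**: every unit of `ℚ̄_q` is congruent to a prime-to-`q` root of
unity. -/
theorem exists_rootOfUnity_norm_sub_lt {x : PadicAlgCl q} (hx : ‖x‖ = 1) :
    ∃ ζ ∈ primeToRoots q, ‖x - ζ‖ < 1 := by
  obtain ⟨m, hm0, hm⟩ := exists_pow_sub_one_lt q hx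
  obtain ⟨a, m', hm'dvd, rfl⟩ := Nat.exists_eq_pow_mul_and_not_dvd hm0.ne' q
    (Fact.out : q.Prime).ne_one
  have hm'0 : 0 < m' := by
    rcases Nat.eq_zero_or_pos m' with rfl | h0
    · simp at hm0
    · exact h0
  have hcop : m'.Coprime q :=
    (Nat.Coprime.symm ((Fact.out : q.Prime).coprime_iff_not_dvd.mpr hm'dvd))
  have h1 : ‖x ^ m' - 1‖ < 1 := by
    refine norm_sub_one_lt_of_pow_prime_pow q ?_ a ?_
    · rw [norm_pow, hx, one_pow]
    · rwa [← pow_mul, mul_comm]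
  haveI : NeZero m' := ⟨hm'0.ne'⟩
  haveI : NeZero (m' : ℚ_[q]) := NeZero.charZero
  obtain ⟨ζ₀, hζ₀⟩ := HasEnoughRootsOfUnity.exists_primitiveRoot (PadicAlgCl q) m'
  have hprod := Polynomial.X_pow_sub_one_eq_prod hm'0 hζ₀
  have heval := congrArg (Polynomial.eval x) hprod
  simp only [Polynomial.eval_sub, Polynomial.eval_pow, Polynomial.eval_X, Polynomial.eval_one,
    Polynomial.eval_prod, Polynomial.eval_C] at heval
  by_contra hcon
  push Not at hcon
  have hge : ∀ ζ ∈ Polynomial.nthRootsFinset m' (1 : PadicAlgCl q), 1 ≤ ‖x - ζ‖ := by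
    intro ζ hζ
    refine hcon ζ ⟨m', hm'0, hcop, ?_⟩
    exact (Polynomial.mem_nthRootsFinset hm'0 _).mp hζ
  have : (1 : ℝ) ≤ ‖x ^ m' - 1‖ := by
    rw [heval, norm_prod]
    calc (1 : ℝ) = ∏ _ζ ∈ Polynomial.nthRootsFinset m' (1 : PadicAlgCl q), (1 : ℝ) := by simp
      _ ≤ _ := Finset.prod_le_prod (fun _ _ => zero_le_one) hge
  exact absurd h1 (not_lt.mpr this)

/-! ### inertia = Gal(ℚ̄_q / maxUnr) -/

theorem fixingSubgroup_maxUnr_le_localInertia :
    (maxUnr q).fixingSubgroup ≤ localInertia q := by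
  intro τ hτ x hx
  rcases lt_or_eq_of_le hx with hlt | heq
  · exact norm_sub_lt_one q (by rwa [norm_algEquiv]) hlt
  · obtain ⟨ζ, hζ, hxζ⟩ := exists_rootOfUnity_norm_sub_lt q heq
    have hfix : τ ζ = ζ :=
      (IntermediateField.mem_fixingSubgroup_iff _ _).mp hτ ζ
        (IntermediateField.subset_adjoin _ _ hζ)
    have : τ x - x = τ (x - ζ) - (x - ζ) := by
      rw [map_sub, hfix]; ring
    rw [this]
    exact norm_sub_lt_one q (by rwa [norm_algEquiv]) hxζ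

/-- **The inertia group of `G_q` is `Gal(ℚ̄_q/ℚ_q^{unr})`.** -/
theorem localInertia_eq_fixingSubgroup_maxUnr :
    localInertia q = (maxUnr q).fixingSubgroup :=
  le_antisymm (localInertia_le_fixingSubgroup_maxUnr q) (fixingSubgroup_maxUnr_le_localInertia q)

instance isGalois_padicAlgCl : IsGalois ℚ_[q] (PadicAlgCl q) :=
  IsAlgClosure.isGalois ℚ_[q] (PadicAlgCl q)

/-- **`L ⊆ ℚ_q^{unr}` iff inertia acts trivially on `L`.** -/
theorem le_maxUnr_iff (L : IntermediateField ℚ_[q] (PadicAlgCl q)) :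
    L ≤ maxUnr q ↔ localInertia q ≤ L.fixingSubgroup := by
  rw [localInertia_eq_fixingSubgroup_maxUnr]
  constructor
  · intro h
    exact IntermediateField.fixingSubgroup_antitone h
  · intro h
    have h1 := IntermediateField.fixedField_antitone h
    rwa [InfiniteGalois.fixedField_fixingSubgroup, InfiniteGalois.fixedField_fixingSubgroup] at h1

/-! ### finite subextensions of `maxUnr q` are cyclotomic -/

/-- A finite subextension of `ℚ_q^{unr}` lies in `ℚ_q(ζ_m)` for some `m` prime to `q`. -/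
theorem exists_le_adjoin_rootOfUnity (L : IntermediateField ℚ_[q] (PadicAlgCl q))
    [FiniteDimensional ℚ_[q] L] (hL : L ≤ maxUnr q) :
    ∃ (m : ℕ) (ζ : PadicAlgCl q), 0 < m ∧ m.Coprime q ∧ IsPrimitiveRoot ζ m ∧ L ≤ ℚ_[q]⟮ζ⟯ := by
  classical
  obtain ⟨a, rfl⟩ := Krasner81.exists_eq_adjoin_simple L
  have ha : a ∈ maxUnr q := hL (IntermediateField.mem_adjoin_simple_self ℚ_[q] a)
  obtain ⟨T, hTS, haT⟩ := IntermediateField.exists_finset_of_mem_adjoin ha
  have hchoice : ∀ t : PadicAlgCl q, ∃ m : ℕ, t ∈ T → (0 < m ∧ m.Coprime q ∧ t ^ m = 1) := by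
    intro t
    by_cases ht : t ∈ T
    · obtain ⟨m, hm0, hm, h⟩ := hTS ht
      exact ⟨m, fun _ => ⟨hm0, hm, h⟩⟩
    · exact ⟨1, fun h => absurd h ht⟩
  choose f hf using hchoice
  set m := ∏ t ∈ T, f t with hm
  have hm0 : 0 < m := Finset.prod_pos fun t ht => (hf t ht).1
  have hmq : m.Coprime q := Nat.Coprime.prod_left fun t ht => (hf t ht).2.1
  haveI : NeZero m := ⟨hm0.ne'⟩
  haveI : NeZero (m : ℚ_[q]) := NeZero.charZero
  obtain ⟨ζ, hζ⟩ := HasEnoughRootsOfUnity.exists_primitiveRoot (PadicAlgCl q) m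
  refine ⟨m, ζ, hm0, hmq, hζ, ?_⟩
  rw [IntermediateField.adjoin_simple_le_iff]
  have hT : IntermediateField.adjoin ℚ_[q] (T : Set (PadicAlgCl q)) ≤ ℚ_[q]⟮ζ⟯ := by
    rw [IntermediateField.adjoin_le_iff]
    intro t ht
    have htT : t ∈ T := ht
    have h1 : t ^ m = 1 := by
      obtain ⟨c, hc⟩ := Finset.dvd_prod_of_mem f htT
      rw [hm, hc, pow_mul, (hf t htT).2.2, one_pow]
    obtain ⟨i, -, rfl⟩ := hζ.eq_pow_of_pow_eq_one h1
    exact pow_mem (IntermediateField.mem_adjoin_simple_self ℚ_[q] ζ) i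
  exact hT haT

end Fermat.Agent.S55.UnrBridge42
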