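/-
S55 / 36a-UNR-BRIDGE, part (G) (helper42): the local–global ramification dictionary.

* `eq_of_center_eq` : a valuation subring of `ℚ̄` over `q` is determined by its centre on `ℤ̄`;
* `exists_smul_eq_of_liesOverPrime` : `G_ℚ` acts transitively on the valuation subrings of `ℚ̄`
  over `q`;
* `mem_fixingSubgroup_map_iff` : `Gal(ℚ̄/σF) = σ Gal(ℚ̄/F) σ⁻¹`;
* `isUnramifiedOutside_iff` : **`F.IsUnramifiedOutside S` iff for every prime `q ∉ S` and every
  `σ ∈ G_ℚ` the local level `ℚ_q(ι σF)` lies in `ℚ_q^{unr} = maxUnr q`**;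
* `localLevel_le_maxUnr` (the direction used for unit cohomology), `isUnramifiedOutside_of_normal`.
No sorry.
-/
import Mathlib
import Fermat.Prelude.Def_GroupCohomology_ContinuousUnramified
import Fermat.Agent.Lib.InertiaGenerate
import Fermat.Agent.S55.UnrBridge42.MaxUnr

set_option autoImplicit false
set_option linter.style.haveILetI false
set_option linter.unusedSectionVars false
set_option synthInstance.maxHeartbeats 200000

open scoped NumberField Pointwise
open Fermat.Agent.Lib.FrobeniusExists Fermat.Agent.Lib.InertiaGenerate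

noncomputable section

namespace Fermat.Agent.S55.UnrBridge42

open Fermat.Agent.S55.ProfinLoc80

attribute [local instance] isAlgebraic_Qb isAlgClosure_Qb isGalois_Qb galActionZb
  smulCommClass_Zb isInvariant_Zb

/-! ### valuation subrings of `ℚ̄` over `q` and their centres -/

theorem under_center_eq {A : ValuationSubring Qb} {q : ℕ} (hq : q.Prime)
    (hA : A.LiesOverPrime q) : (center A).under ℤ = Ideal.span {(q : ℤ)} := by
  have hqz : Prime (q : ℤ) := Nat.prime_iff_prime_int.mp hq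
  have hmax : (Ideal.span {(q : ℤ)}).IsMaximal :=
    PrincipalIdealRing.isMaximal_of_irreducible hqz.irreducible
  have hle : Ideal.span {(q : ℤ)} ≤ (center A).under ℤ := by
    rw [Ideal.span_singleton_le_iff_mem, Ideal.mem_comap, mem_center]
    have hA' : (q : Qb) ∈ A.nonunits := hA
    simpa using hA'
  have hne : (center A).under ℤ ≠ ⊤ :=
    (Ideal.comap_isPrime (algebraMap ℤ Zb) (center A)).ne_top
  exact (hmax.eq_of_le hne hle).symm

theorem le_of_center_eq {A B : ValuationSubring Qb} {q : ℕ} (hq : q.Prime)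
    (hA : A.LiesOverPrime q) (h : center A = center B) : A ≤ B := by
  intro x hx
  have hA' : (q : Qb) ∈ A.nonunits := hA
  obtain ⟨s, hs, hsA, hsx⟩ := exists_unit_integral_mul A hq hA' hx (isAlgebraic_int_Qb x)
  have hsB : s ∉ B.nonunits := by
    intro hmem
    apply hsA
    have h1 : (⟨s, hs⟩ : Zb) ∈ center B := (mem_center B).mpr hmem
    rw [← h] at h1
    exact (mem_center A).mp h1
  have hs0 : s ≠ 0 := fun h0 => hsA (h0 ▸ A.nonunits.zero_mem)
  have hx' : x = (s * x) * s⁻¹ := by field_simp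
  rw [hx']
  exact B.mul_mem _ _ (isIntegral_int_mem B hsx) (inv_mem_of_not_mem_nonunits B hsB)

theorem eq_of_center_eq {A B : ValuationSubring Qb} {q : ℕ} (hq : q.Prime)
    (hA : A.LiesOverPrime q) (hB : B.LiesOverPrime q) (h : center A = center B) : A = B :=
  le_antisymm (le_of_center_eq hq hA h) (le_of_center_eq hq hB h.symm)

/-- `G_ℚ` acts transitively on the valuation subrings of `ℚ̄` lying over `q`. -/
theorem exists_smul_eq_of_liesOverPrime {q : ℕ} (hq : q.Prime) (A B : ValuationSubring Qb)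
    (hA : A.LiesOverPrime q) (hB : B.LiesOverPrime q) : ∃ σ : GQ, σ • A = B := by
  letI : TopologicalSpace Zb := ⊥
  haveI : DiscreteTopology Zb := ⟨rfl⟩
  haveI := continuousSMul_Zb
  have hunder : (center A).under ℤ = (center B).under ℤ := by
    rw [under_center_eq hq hA, under_center_eq hq hB]
  obtain ⟨g, hg⟩ := Algebra.IsInvariant.exists_smul_of_under_eq_of_profinite
    (A := ℤ) (B := Zb) (G := GQ) (center A) (center B) hunder
  refine ⟨g, eq_of_center_eq hq (liesOverPrime_smul hA g) hB ?_⟩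
  rw [center_smul, hg]

/-! ### conjugate fields -/

theorem mem_fixingSubgroup_map_iff (F : IntermediateField ℚ Qb) (σ τ : GQ) :
    τ ∈ (F.map σ.toAlgHom).fixingSubgroup ↔ σ⁻¹ * τ * σ ∈ F.fixingSubgroup := by
  rw [IntermediateField.mem_fixingSubgroup_iff, IntermediateField.mem_fixingSubgroup_iff]
  constructor
  · intro h x hx
    have h1 : τ (σ x) = σ x := h (σ x) ⟨x, hx, rfl⟩
    rw [AlgEquiv.mul_apply, AlgEquiv.mul_apply, h1, ← AlgEquiv.mul_apply, inv_mul_cancel,
      AlgEquiv.one_apply]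
  · rintro h _ ⟨x, hx, rfl⟩
    have h1 := h x hx
    rw [AlgEquiv.mul_apply, AlgEquiv.mul_apply] at h1
    have h2 := congrArg σ h1
    rw [← AlgEquiv.mul_apply σ σ⁻¹, mul_inv_cancel, AlgEquiv.one_apply] at h2
    exact h2

/-! ### the dictionary -/

/-- **global ⇒ local**: if `F` is unramified outside `S` (Prelude sense) and `q ∉ S`, then every
local level `ℚ_q(ι σF)` lies in the maximal unramified extension of `ℚ_q`. -/
theorem localLevel_le_maxUnr {S : Finset Nat.Primes} {F : IntermediateField ℚ Qb}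
    (hF : F.IsUnramifiedOutside S) (q : ℕ) [Fact q.Prime]
    (hq : (⟨q, Fact.out⟩ : Nat.Primes) ∉ S) (σ : GQ) :
    localLevel q (F.map σ.toAlgHom) ≤ maxUnr q := by
  have hqp : q.Prime := Fact.out
  rw [le_maxUnr_iff]
  intro τ hτ
  rw [mem_fixingSubgroup_localLevel_iff, mem_fixingSubgroup_map_iff]
  have h1 : localGaloisToGlobal q τ ∈ (padicPlace q).inertiaSubgroupIn ℚ :=
    (localGaloisToGlobal_mem_inertiaSubgroupIn_iff q τ).mpr hτ
  have h2 := conj_mem_inertiaSubgroupIn hqp (liesOverPrime_padicPlace q) σ⁻¹ h1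
  rw [inv_inv] at h2
  exact hF.2 ⟨q, hqp⟩ hq _ (liesOverPrime_smul (liesOverPrime_padicPlace q) σ⁻¹) h2

/-- **local ⇒ global**. -/
theorem isUnramifiedOutside_of_localLevel_le {S : Finset Nat.Primes}
    {F : IntermediateField ℚ Qb} [FiniteDimensional ℚ F]
    (h : ∀ (q : ℕ) [Fact q.Prime], (⟨q, Fact.out⟩ : Nat.Primes) ∉ S → ∀ σ : GQ,
      localLevel q (F.map σ.toAlgHom) ≤ maxUnr q) :
    F.IsUnramifiedOutside S := by
  refine ⟨inferInstance, fun q hq A hA τ' hτ' => ?_⟩
  haveI : Fact (q : ℕ).Prime := ⟨q.2⟩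
  obtain ⟨σ, hσ⟩ := exists_smul_eq_of_liesOverPrime q.2 (padicPlace (q : ℕ)) A
    (liesOverPrime_padicPlace (q : ℕ)) hA
  -- `σ⁻¹ τ' σ` is in the inertia group of `padicPlace q`
  have h1 : σ⁻¹ * τ' * σ ∈ (padicPlace (q : ℕ)).inertiaSubgroupIn ℚ := by
    have := conj_mem_inertiaSubgroupIn q.2 hA σ⁻¹ hτ'
    rw [inv_inv, ← hσ, inv_smul_smul] at this
    exact this
  rw [← map_localInertia] at h1
  obtain ⟨τ, hτ, hτeq⟩ := h1
  have h2 := (le_maxUnr_iff (q : ℕ) _).mp (h (q : ℕ) hq σ⁻¹) hτ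
  rw [mem_fixingSubgroup_localLevel_iff, mem_fixingSubgroup_map_iff, hτeq, inv_inv] at h2
  have h3 : σ * (σ⁻¹ * τ' * σ) * σ⁻¹ = τ' := by group
  rwa [h3] at h2

/-- **The local–global ramification dictionary.** -/
theorem isUnramifiedOutside_iff (F : IntermediateField ℚ Qb) [FiniteDimensional ℚ F]
    (S : Finset Nat.Primes) :
    F.IsUnramifiedOutside S ↔
      ∀ (q : ℕ) [Fact q.Prime], (⟨q, Fact.out⟩ : Nat.Primes) ∉ S → ∀ σ : GQ,
        localLevel q (F.map σ.toAlgHom) ≤ maxUnr q :=
  ⟨fun hF q _ hq σ => localLevel_le_maxUnr hF q hq σ,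
    fun h => isUnramifiedOutside_of_localLevel_le h⟩

/-- the case `σ = 1`. -/
theorem localLevel_le_maxUnr' {S : Finset Nat.Primes} {F : IntermediateField ℚ Qb}
    (hF : F.IsUnramifiedOutside S) (q : ℕ) [Fact q.Prime]
    (hq : (⟨q, Fact.out⟩ : Nat.Primes) ∉ S) :
    localLevel q F ≤ maxUnr q := by
  have h := localLevel_le_maxUnr hF q hq 1
  have h1 : F.map (1 : GQ).toAlgHom = F := by
    ext x
    constructor
    · rintro ⟨y, hy, rfl⟩
      exact hy
    · intro hx
      exact ⟨x, hx, rfl⟩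
  rwa [h1] at h

/-- For `F` normal over `ℚ` only the standard embedding has to be tested. -/
theorem isUnramifiedOutside_of_normal {S : Finset Nat.Primes}
    {F : IntermediateField ℚ Qb} [FiniteDimensional ℚ F] [Normal ℚ F]
    (h : ∀ (q : ℕ) [Fact q.Prime], (⟨q, Fact.out⟩ : Nat.Primes) ∉ S →
      localLevel q F ≤ maxUnr q) :
    F.IsUnramifiedOutside S := by
  refine isUnramifiedOutside_of_localLevel_le fun q _ hq σ => ?_
  have h1 : F.map σ.toAlgHom = F := by
    have := IntermediateField.normal_iff_forall_map_eq'.mp (inferInstance : Normal ℚ F) σ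
    exact this
  rw [h1]
  exact h q hq

end Fermat.Agent.S55.UnrBridge42
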