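/-
S55 / 36a-UNR-BRIDGE, part (N) (helper42): the VALUE-GROUP (norm) form of unramifiedness,
against the landed local model `UnrExt93` (helper93).

* `exists_le_unr` : a finite `L ≤ K ⊔ maxUnr q` lies in `UnrExt93.unr q K n` for some `n > 0`;
* `exists_norm_eq_of_le_sup_maxUnr` : then every element of `L` has the norm of an element of `K`
  (= `LocField17.IsUnr` / the hypothesis UNRAMIFIED of `LocUnr89.PadicInst`);
* `exists_norm_eq_of_le_maxUnr` : the case `K = ℚ_q`;
* `exists_norm_eq_of_isUnramifiedOutside` : **global form**: `F ≤ F'` number fields in `ℚ̄`,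
  `F'` unramified outside `S`, `q ∉ S`  ⇒  `ℚ_q(ι σF')/ℚ_q(ι σF)` is unramified in the norm sense.
No sorry.
-/
import Mathlib
import Fermat.Agent.S55.UnrBridge42.Global
import Fermat.Agent.S55.UnrExt93.Unr

set_option autoImplicit false
set_option linter.style.haveILetI false
set_option linter.unusedSectionVars false
set_option synthInstance.maxHeartbeats 200000

open scoped NumberField Pointwise
open IntermediateField
open Fermat.Agent.Lib.FrobeniusExists Fermat.Agent.Lib.InertiaGenerate

noncomputable section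

namespace Fermat.Agent.S55.UnrBridge42

open Fermat.Agent.S55.ProfinLoc80 Fermat.Agent.S55.UnrExt93

variable (q : ℕ) [Fact q.Prime]

/-- `m ∣ Q ^ φ(m) - 1` for `Q` a power of `q` and `m` prime to `q`. -/
theorem dvd_pow_totient_sub_one {m a : ℕ} (hm : m.Coprime q) :
    m ∣ (q ^ a) ^ m.totient - 1 := by
  have hcop : (q ^ a).Coprime m := Nat.Coprime.pow_left a hm.symm
  have h := Nat.ModEq.pow_totient hcop
  exact (Nat.modEq_iff_dvd' (Nat.one_le_pow _ _ (Nat.pos_of_ne_zero
    (pow_ne_zero a (Fact.out : q.Prime).ne_zero)))).mp h.symm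

/-- A finite subextension of `K · ℚ_q^{unr}` lies in one of the unramified extensions `K_n`. -/
theorem exists_le_unr (K L : IntermediateField ℚ_[q] (PadicAlgCl q))
    [FiniteDimensional ℚ_[q] K] [FiniteDimensional ℚ_[q] L] (hL : L ≤ K ⊔ maxUnr q) :
    ∃ n : ℕ, 0 < n ∧ L ≤ unr q K n := by
  classical
  obtain ⟨a, rfl⟩ := Krasner81.exists_eq_adjoin_simple L
  have ha : a ∈ K ⊔ maxUnr q := hL (IntermediateField.mem_adjoin_simple_self ℚ_[q] a)
  have hsup : K ⊔ maxUnr q =
      IntermediateField.adjoin ℚ_[q] ((K : Set (PadicAlgCl q)) ∪ primeToRoots q) := by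
    rw [IntermediateField.adjoin_union, IntermediateField.adjoin_self]
    rfl
  rw [hsup] at ha
  obtain ⟨T, hTS, haT⟩ := IntermediateField.exists_finset_of_mem_adjoin ha
  have hchoice : ∀ t : PadicAlgCl q, ∃ m : ℕ, 0 < m ∧ m.Coprime q ∧
      (t ∈ T → t ∈ K ∨ t ^ m = 1) := by
    intro t
    by_cases ht : t ∈ T
    · rcases hTS ht with h | ⟨m, hm0, hm, h⟩
      · exact ⟨1, one_pos, Nat.coprime_one_left q, fun _ => Or.inl h⟩
      · exact ⟨m, hm0, hm, fun _ => Or.inr h⟩
    · exact ⟨1, one_pos, Nat.coprime_one_left q, fun h => absurd h ht⟩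
  choose f hf0 hfq hf using hchoice
  set m := ∏ t ∈ T, f t with hm
  have hm0 : 0 < m := Finset.prod_pos fun t _ => hf0 t
  have hmq : m.Coprime q := Nat.Coprime.prod_left fun t _ => hfq t
  obtain ⟨e, he0, he⟩ := resCard_pos_pow K
  have hn0 : 0 < m.totient := Nat.totient_pos.mpr hm0
  refine ⟨m.totient, hn0, ?_⟩
  rw [IntermediateField.adjoin_simple_le_iff]
  have hT : IntermediateField.adjoin ℚ_[q] (T : Set (PadicAlgCl q)) ≤ unr q K m.totient := by
    rw [IntermediateField.adjoin_le_iff]
    intro t ht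
    have htT : t ∈ T := ht
    rcases hf t htT with h | h
    · exact le_unr K _ h
    · refine mem_unr_of_pow_eq_one K _ ?_
      have h1 : f t ∣ m := Finset.dvd_prod_of_mem f htT
      have h2 : m ∣ resCard q K ^ m.totient - 1 := by
        rw [he]
        exact dvd_pow_totient_sub_one q hmq
      obtain ⟨c, hc⟩ := h1.trans h2
      rw [hc, pow_mul, h, one_pow]
  exact hT haT

/-- **Norm form, relative**: a finite `L ≤ K · ℚ_q^{unr}` has the same value group as `K`. -/
theorem exists_norm_eq_of_le_sup_maxUnr (K L : IntermediateField ℚ_[q] (PadicAlgCl q))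
    [FiniteDimensional ℚ_[q] K] [FiniteDimensional ℚ_[q] L] (hL : L ≤ K ⊔ maxUnr q)
    {x : PadicAlgCl q} (hx : x ∈ L) : ∃ y ∈ K, ‖x‖ = ‖y‖ := by
  obtain ⟨n, hn, hle⟩ := exists_le_unr q K L hL
  exact unramified hn (hle hx)

/-- **Norm form, absolute**: a finite `L ≤ ℚ_q^{unr}` has value group `‖ℚ_q‖`. -/
theorem exists_norm_eq_of_le_maxUnr (L : IntermediateField ℚ_[q] (PadicAlgCl q))
    [FiniteDimensional ℚ_[q] L] (hL : L ≤ maxUnr q) {x : PadicAlgCl q} (hx : x ∈ L) :
    ∃ y : ℚ_[q], ‖x‖ = ‖y‖ := by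
  obtain ⟨y, hy, hxy⟩ := exists_norm_eq_of_le_sup_maxUnr q ⊥ L (hL.trans le_sup_right) hx
  obtain ⟨r, rfl⟩ := IntermediateField.mem_bot.mp hy
  exact ⟨r, by rw [hxy, PadicAlgCl.norm_extends]⟩

/-- the local level of a number field is finite over `ℚ_q`. -/
theorem finiteDimensional_localLevel (F : IntermediateField ℚ Qb) [FiniteDimensional ℚ F] :
    FiniteDimensional ℚ_[q] (localLevel q F) := by
  obtain ⟨b, rfl⟩ := Krasner81.exists_eq_adjoin_simple F
  have key : ∀ x : Qb, x ∈ ℚ⟮b⟯ → padicEmbedding q x ∈ ℚ_[q]⟮padicEmbedding q b⟯ := by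
    intro x hx
    induction hx using IntermediateField.adjoin_induction with
    | mem y hy =>
      rw [Set.mem_singleton_iff.mp hy]
      exact IntermediateField.mem_adjoin_simple_self ℚ_[q] _
    | algebraMap c =>
      rw [AlgHom.commutes, IsScalarTower.algebraMap_apply ℚ ℚ_[q] (PadicAlgCl q)]
      exact IntermediateField.algebraMap_mem _ _
    | add y z _ _ hy hz => rw [map_add]; exact add_mem hy hz
    | inv y _ hy => rw [map_inv₀]; exact inv_mem hy
    | mul y z _ _ hy hz => rw [map_mul]; exact mul_mem hy hz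
  have hle : localLevel q ℚ⟮b⟯ ≤ ℚ_[q]⟮padicEmbedding q b⟯ := by
    rw [localLevel, IntermediateField.adjoin_le_iff]
    rintro _ ⟨x, hx, rfl⟩
    exact key x hx
  have hint : IsIntegral ℚ_[q] (padicEmbedding q b) :=
    (PadicAlgCl.isAlgebraic q).isIntegral.1 _
  haveI : FiniteDimensional ℚ_[q] ℚ_[q]⟮padicEmbedding q b⟯ :=
    IntermediateField.adjoin.finiteDimensional hint
  exact FiniteDimensional.of_injective (IntermediateField.inclusion hle).toLinearMap
    (IntermediateField.inclusion_injective hle)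

/-- **Global form**: if `F'` is unramified outside `S` (Prelude sense) and `q ∉ S`, then for every
`σ ∈ G_ℚ` and every number field `F` the extension `ℚ_q(ι σF') / ℚ_q(ι σF)`... more precisely every
element of the local level of `σF'` has the norm of an element of the local level of `σF`
(`F ≤ F'` is not needed). This is the hypothesis UNRAMIFIED of `LocUnr89.PadicInst` and
`LocField17.IsUnr`. -/
theorem exists_norm_eq_of_isUnramifiedOutside {S : Finset Nat.Primes}
    {F F' : IntermediateField ℚ Qb} [FiniteDimensional ℚ F]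
    (hF' : F'.IsUnramifiedOutside S) (hq : (⟨q, Fact.out⟩ : Nat.Primes) ∉ S) (σ : GQ)
    {x : PadicAlgCl q} (hx : x ∈ localLevel q (F'.map σ.toAlgHom)) :
    ∃ y ∈ localLevel q (F.map σ.toAlgHom), ‖x‖ = ‖y‖ := by
  haveI := hF'.1
  haveI : FiniteDimensional ℚ (F'.map σ.toAlgHom) :=
    LinearEquiv.finiteDimensional (IntermediateField.equivMap F' σ.toAlgHom).toLinearEquiv
  haveI : FiniteDimensional ℚ (F.map σ.toAlgHom) :=
    LinearEquiv.finiteDimensional (IntermediateField.equivMap F σ.toAlgHom).toLinearEquiv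
  haveI := finiteDimensional_localLevel q (F'.map σ.toAlgHom)
  haveI := finiteDimensional_localLevel q (F.map σ.toAlgHom)
  exact exists_norm_eq_of_le_sup_maxUnr q _ _
    ((localLevel_le_maxUnr hF' q hq σ).trans le_sup_right) hx

end Fermat.Agent.S55.UnrBridge42
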