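/-
S55 / 36a-UNR-BRIDGE, adapter (helper42): discharge of helper44's hypothesis
`IdeleVal44.IsUnrAt q (locHom q L)` (integrality of the valuation on the `q`-component of the
ideles of `L`) for an `S`-level `L` and a prime `q ∉ S`.

* `mem_localLevel_of_fixed` : an element of `PadicAlgCl q` fixed by `ker (locHom q L)` lies in
  the local level `ℚ_q(ι L)`;
* `exists_zpow_norm_eq` : elements of a local level at `q ∉ S` have norm `q ^ (-n)`, `n : ℤ`;
* `isUnrAt_locHom` : **`L.IsUnramifiedOutside S`, `q ∉ S` ⇒ `IdeleVal44.IsUnrAt q (locHom q L)`**.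
No sorry.
-/
import Mathlib
import Fermat.Agent.S55.UnrBridge42.Norm
import Fermat.Agent.S55.IdeleVal44.Val
import Fermat.Agent.S55.Idele73.Local

set_option autoImplicit false
set_option linter.style.haveILetI false
set_option linter.unusedSectionVars false
set_option synthInstance.maxHeartbeats 200000

open scoped NumberField Pointwise
open Fermat.Agent.Lib.FrobeniusExists Fermat.Agent.Lib.InertiaGenerate

noncomputable section

namespace Fermat.Agent.S55.UnrBridge42

open Fermat.Agent.S55.ProfinLoc80 Fermat.Agent.S55.Idele73.Basic Fermat.Agent.S55.Idele73.Local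
  Fermat.Agent.S55.IdeleVal44

variable (q : ℕ) [Fact q.Prime]

/-- An element of `ℚ̄_q` fixed by `Gal(ℚ̄_q/E)` lies in `E` (`E` any intermediate field). -/
theorem mem_of_forall_fixingSubgroup (E : IntermediateField ℚ_[q] (PadicAlgCl q))
    {x : PadicAlgCl q} (h : ∀ τ ∈ E.fixingSubgroup, τ x = x) : x ∈ E := by
  rw [← InfiniteGalois.fixedField_fixingSubgroup E, IntermediateField.mem_fixedField_iff]
  exact h

/-- A unit of `ℚ̄_q` fixed by `ker (locHom q L)` lies in the local level `ℚ_q(ι L)`. -/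
theorem mem_localLevel_of_fixed (L : IntermediateField ℚ Qb) [Normal ℚ L]
    (u : (PadicAlgCl q)ˣ) (hu : ∀ τ ∈ (locHom q L).ker, τ • u = u) :
    (u : PadicAlgCl q) ∈ localLevel q L := by
  refine mem_of_forall_fixingSubgroup q _ fun τ hτ => ?_
  have h1 : τ ∈ (locHom q L).ker := by
    rw [ker_locHom]
    exact hτ
  exact congrArg Units.val (hu τ h1)

/-- Elements of a local level at an unramified prime have norm an integral power of `q`. -/
theorem exists_zpow_norm_eq {S : Finset Nat.Primes} {L : IntermediateField ℚ Qb}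
    (hL : L.IsUnramifiedOutside S) (hq : (⟨q, Fact.out⟩ : Nat.Primes) ∉ S)
    {x : PadicAlgCl q} (hx : x ∈ localLevel q L) (hx0 : x ≠ 0) :
    ∃ n : ℤ, ‖x‖ = (q : ℝ) ^ (-n) := by
  haveI := hL.1
  haveI := finiteDimensional_localLevel q L
  obtain ⟨y, hy⟩ := exists_norm_eq_of_le_maxUnr q (localLevel q L)
    (localLevel_le_maxUnr' hL q hq) hx
  have hy0 : y ≠ 0 := by
    rintro rfl
    rw [norm_zero, norm_eq_zero] at hy
    exact hx0 hy
  exact ⟨y.valuation, by rw [hy, Padic.norm_eq_zpow_neg_valuation hy0]⟩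

/-- **Discharge of `IdeleVal44.IsUnrAt`** for an `S`-level `L` and `q ∉ S`. -/
theorem isUnrAt_locHom {S : Finset Nat.Primes} (L : IntermediateField ℚ Qb) [Normal ℚ L]
    (hL : L.IsUnramifiedOutside S) (hq : (⟨q, Fact.out⟩ : Nat.Primes) ∉ S) :
    IsUnrAt q (locHom q L) := by
  intro u hu
  have hmem := mem_localLevel_of_fixed q L u hu
  obtain ⟨n, hn⟩ := exists_zpow_norm_eq q hL hq hmem (Units.ne_zero u)
  refine ⟨n, ?_⟩
  have hq1 : (1 : ℝ) < q := by exact_mod_cast (Fact.out : q.Prime).one_lt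
  have hlog : Real.log (q : ℝ) ≠ 0 := (Real.log_pos hq1).ne'
  rw [valAdd_apply, toMul_ofMul, hn, Real.log_zpow]
  push_cast
  field_simp

end Fermat.Agent.S55.UnrBridge42
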