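/-
S55 / 15c-PLACE-DICT (P3) + 32c (V0) (helper42): every finite place of a number field comes from an
embedding into `PadicAlgCl ℓ`.

* `exists_valuationSubring_of_prime` : a non-zero prime `P` of `𝓞 K` (abstract number field `K`,
  `φ : K →+* ℚ̄`) is cut out by a valuation subring of `ℚ̄`;
* `exists_embedding_of_place` : hence by `x ↦ ‖padicEmbedding q (g (φ x))‖ < 1`, `g ∈ G_ℚ`;
* `valuation_le_one_iff_of_forall` : an embedding `σ : K →+* PadicAlgCl q` cutting out the prime of
  `v` on `𝓞 K` cuts out the valuation ring of `v`;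
* `orbitHyp` : **`PlaceDict58.OrbitHyp L`** for every number field `L ≤ ℚ̄` (not nec. Galois);
* `nonempty_placeData` : **`Nonempty (SecondInst53.PlaceModel.PlaceData K)`** for every number field.
No sorry.
-/
import Mathlib
import Fermat.Agent.Lib.InertiaGenerate
import Fermat.Agent.S55.UnrBridge42.Global
import Fermat.Agent.S55.PlaceDict58
import Fermat.Agent.S55.SecondInst53.PlaceModel

set_option autoImplicit false
set_option linter.style.haveILetI false
set_option linter.unusedSectionVars false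
set_option synthInstance.maxHeartbeats 200000

open scoped NumberField Pointwise NNReal
open IsDedekindDomain NumberField
open Fermat.Agent.Lib.FrobeniusExists Fermat.Agent.Lib.InertiaGenerate

noncomputable section

namespace Fermat.Agent.S55.UnrBridge42

attribute [local instance] isAlgebraic_Qb isAlgClosure_Qb isGalois_Qb

section Abstract

variable {K : Type*} [Field K] [NumberField K]

/-- A non-zero prime of `𝓞 K` is cut out, through any embedding `φ : K → ℚ̄`, by a valuation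
subring of `ℚ̄` lying over a rational prime. -/
theorem exists_valuationSubring_of_prime (φ : K →+* Qb) (P : Ideal (𝓞 K)) [hPprime : P.IsPrime]
    (hP : P ≠ ⊥) :
    ∃ (q : ℕ) (A : ValuationSubring Qb), q.Prime ∧ A.LiesOverPrime q ∧
      ∀ x : 𝓞 K, φ (x : K) ∈ A.nonunits ↔ x ∈ P := by
  haveI : NeZero P := ⟨hP⟩
  have hq : (Ideal.absNorm (Ideal.under ℤ P)).Prime := Nat.absNorm_under_prime P
  have hqP : ((Ideal.absNorm (Ideal.under ℤ P) : ℕ) : 𝓞 K) ∈ P := Int.absNorm_under_mem P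
  let f : 𝓞 K →+* Qb := φ.comp (algebraMap (𝓞 K) K)
  have hf : Function.Injective f :=
    φ.injective.comp NumberField.RingOfIntegers.coe_injective
  let R : Subring Qb := f.range
  let I : Ideal R := P.map f.rangeRestrict
  have hI : I ≠ ⊤ := by
    intro h
    have h1 : (1 : R) ∈ I := h ▸ Submodule.mem_top
    rw [Ideal.mem_map_iff_of_surjective _ f.rangeRestrict_surjective] at h1
    obtain ⟨x, hx, hx1⟩ := h1
    have h2 : f x = 1 := congrArg Subtype.val hx1
    have h3 : x = 1 := hf (h2.trans (map_one f).symm)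
    exact hPprime.ne_top ((Ideal.eq_top_iff_one _).mpr (h3 ▸ hx))
  obtain ⟨A, -, hA⟩ := Ideal.image_subset_nonunits_valuationSubring I hI
  have hint : ∀ x : 𝓞 K, f x ∈ A := fun x =>
    isIntegral_int_mem A (map_isIntegral_int f (RingOfIntegers.isIntegral x))
  let fA : 𝓞 K →+* A := f.codRestrict A.toSubring hint
  let P' : Ideal (𝓞 K) := (IsLocalRing.maximalIdeal A).comap fA
  have hP'mem : ∀ x : 𝓞 K, x ∈ P' ↔ f x ∈ A.nonunits := fun x => by
    rw [Ideal.mem_comap]
    exact (A.coe_mem_nonunits_iff (a := fA x)).symm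
  have hPle : P ≤ P' := by
    intro x hx
    rw [hP'mem]
    exact hA ⟨f.rangeRestrict x, Ideal.mem_map_of_mem _ hx, rfl⟩
  have hP'top : P' ≠ ⊤ := (Ideal.comap_isPrime fA _).ne_top
  have hmax : P.IsMaximal := Ideal.IsPrime.isMaximal hPprime hP
  have hPP' : P = P' := hmax.eq_of_le hP'top hPle
  refine ⟨_, A, hq, ?_, fun x => ?_⟩
  · have h4 := (hP'mem _).mp (hPle hqP)
    have h5 : f ((Ideal.absNorm (Ideal.under ℤ P) : ℕ) : 𝓞 K) =
        ((Ideal.absNorm (Ideal.under ℤ P) : ℕ) : Qb) := map_natCast f _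
    rw [h5] at h4
    exact h4
  · rw [hPP', hP'mem]
    rfl

/-- Every finite place of a number field is cut out by an embedding into `PadicAlgCl q`
of the form `padicEmbedding q ∘ g ∘ φ`, `g ∈ G_ℚ`, for any chosen `φ : K → ℚ̄`. -/
theorem exists_embedding_of_place (φ : K →+* Qb) (v : HeightOneSpectrum (𝓞 K)) :
    ∃ (q : ℕ) (_ : Fact q.Prime) (g : GQ),
      ∀ x : 𝓞 K, ‖padicEmbedding q (g (φ (x : K)))‖ < 1 ↔ x ∈ v.asIdeal := by
  haveI := v.isPrime
  obtain ⟨q, A, hq, hA, hmem⟩ := exists_valuationSubring_of_prime φ v.asIdeal v.ne_bot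
  haveI : Fact q.Prime := ⟨hq⟩
  obtain ⟨g, hg⟩ := exists_smul_eq_of_liesOverPrime hq (padicPlace q) A
    (liesOverPrime_padicPlace q) hA
  refine ⟨q, ⟨hq⟩, g⁻¹, fun x => ?_⟩
  rw [← mem_nonunits_padicPlace_iff, ← hmem, ← hg, mem_nonunits_smul_iff]

/-- An embedding cutting out the prime of `v` on `𝓞 K` cuts out the valuation ring of `v`. -/
theorem valuation_le_one_iff_of_forall {q : ℕ} [Fact q.Prime] (v : HeightOneSpectrum (𝓞 K))
    (σ : K →+* PadicAlgCl q) (h : ∀ x : 𝓞 K, ‖σ (x : K)‖ < 1 ↔ x ∈ v.asIdeal) (x : K) :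
    v.valuation K x ≤ 1 ↔ ‖σ x‖ ≤ 1 := by
  let ball : ValuationSubring K := (padicIntegers q).comap σ
  have hball : ∀ y : K, y ∈ ball ↔ ‖σ y‖ ≤ 1 := fun y => by
    show σ y ∈ padicIntegers q ↔ _
    rw [mem_padicIntegers_iff, ← NNReal.coe_le_coe]
    rfl
  have hint : ∀ a : 𝓞 K, ‖σ (a : K)‖ ≤ 1 := fun a =>
    (hball _).mp (isIntegral_int_mem ball (RingOfIntegers.isIntegral_coe a))
  have hle : HeightOneSpectrum.valuationSubringAtPrime K v ≤ ball := by
    rintro y ⟨a, s, hs, rfl⟩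
    rw [hball, map_mul, map_inv₀, norm_mul, norm_inv]
    have hs1 : ‖σ ((s : 𝓞 K) : K)‖ = 1 :=
      le_antisymm (hint s) (not_lt.mp fun hlt => hs ((h s).mp hlt))
    have ha : ‖σ ((a : 𝓞 K) : K)‖ ≤ 1 := hint a
    simpa [hs1] using ha
  have hne : ball ≠ ⊤ := by
    intro htop
    have h1 : ((q : K))⁻¹ ∈ ball := htop ▸ ValuationSubring.mem_top _
    rw [hball, map_inv₀, map_natCast, norm_inv, ProfinLoc80.norm_natCast_q, inv_inv] at h1
    exact absurd h1 (not_le.mpr (ProfinLoc80.one_lt_q q))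
  have heq : HeightOneSpectrum.valuationSubringAtPrime K v = ball :=
    ValuationSubring.eq_of_le_of_ne_top _ hle hne
  rw [← hball, ← heq, HeightOneSpectrum.valuationSubringAtPrime_eq_valuationSubring,
    Valuation.mem_valuationSubring_iff]

end Abstract

/-! ### (P3): the orbit hypothesis of `PlaceDict58` -/

/-- **`PlaceDict58.OrbitHyp L` holds for every number field `L ≤ ℚ̄`** (not necessarily Galois):
every place of `L` above `ℓ` is `placeOf ℓ L σ` for an embedding `σ : L →ₐ[ℚ] ℚ̄`. -/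
theorem orbitHyp (L : IntermediateField ℚ Qb) [NumberField L] : PlaceDict58.OrbitHyp L := by
  intro ℓ hℓ v hv
  haveI := v.isPrime
  obtain ⟨q, A, -, -, hmem⟩ :=
    exists_valuationSubring_of_prime (algebraMap L Qb) v.asIdeal v.ne_bot
  have hA : A.LiesOverPrime ℓ := by
    have h1 := (hmem ((ℓ : ℕ) : 𝓞 L)).mpr hv
    have h2 : ((((ℓ : ℕ) : 𝓞 L) : 𝓞 L) : L) = ((ℓ : ℕ) : L) :=
      map_natCast (algebraMap (𝓞 L) L) ℓ
    rw [h2, map_natCast] at h1
    exact h1
  obtain ⟨g, hg⟩ := exists_smul_eq_of_liesOverPrime hℓ.out (padicPlace ℓ) A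
    (liesOverPrime_padicPlace ℓ) hA
  refine ⟨(g⁻¹ : GQ).toAlgHom.comp L.val, ?_⟩
  apply HeightOneSpectrum.ext
  apply Ideal.ext
  intro x
  have h1 : x ∈ (PlaceDict58.placeOf ℓ L ((g⁻¹ : GQ).toAlgHom.comp L.val)).asIdeal ↔
      ‖padicEmbedding ℓ ((g⁻¹ : GQ) (algebraMap L Qb (x : L)))‖ < 1 := Iff.rfl
  rw [h1, ← mem_nonunits_padicPlace_iff, ← mem_nonunits_smul_iff, hg]
  exact hmem x

/-! ### (V0): `PlaceData` exists -/

/-- Every finite place `v` of a number field `K` is cut out by a ring embedding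
`σ : K →+* PadicAlgCl q`. -/
theorem exists_placeEmb {K : Type*} [Field K] [NumberField K] (v : HeightOneSpectrum (𝓞 K)) :
    ∃ (q : ℕ) (_ : Fact q.Prime) (σ : K →+* PadicAlgCl q),
      ∀ x : K, v.valuation K x ≤ 1 ↔ ‖σ x‖ ≤ 1 := by
  haveI : Algebra.IsAlgebraic ℚ K := Algebra.IsAlgebraic.of_finite ℚ K
  let φ : K →ₐ[ℚ] Qb := IsAlgClosed.lift
  obtain ⟨q, hq, g, hg⟩ := exists_embedding_of_place (φ : K →+* Qb) v
  refine ⟨q, hq, (padicEmbedding q).toRingHom.comp
    ((g.toAlgHom.toRingHom).comp (φ : K →+* Qb)), fun x => ?_⟩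
  refine valuation_le_one_iff_of_forall v _ (fun y => ?_) x
  have h1 : ((padicEmbedding q).toRingHom.comp
      ((g.toAlgHom.toRingHom).comp (φ : K →+* Qb))) (y : K) =
        padicEmbedding q (g ((φ : K →+* Qb) (y : K))) := rfl
  rw [h1]
  exact hg y

set_option maxHeartbeats 400000 in
/-- **Every number field has place data**: chosen embeddings `σ_v : K → PadicAlgCl ℓ_v` cutting
out all finite places. -/
theorem nonempty_placeData (K : Type*) [Field K] [NumberField K] :
    Nonempty (Fermat.Agent.S55.SecondInst53.PlaceModel.PlaceData K) := by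
  choose ℓ hℓ σ hσ using fun v : HeightOneSpectrum (𝓞 K) => exists_placeEmb v
  exact ⟨⟨ℓ, hℓ, σ, hσ⟩⟩

end Fermat.Agent.S55.UnrBridge42
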