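/-
S55 / 36a-UNR-BRIDGE, adapter (helper42): **every valuation subring `A` of `ℚ̄` over `q` is the
pull-back of the unit ball of `PadicAlgCl q` along `padicEmbedding q ∘ g` for some `g ∈ G_ℚ`.**
This translates every Prelude statement about `A ∈ A`, `A.nonunits`, `A.valuation y = 1`,
`A.valuation y ≤ 1` into a norm statement (and back).

* `mem_smul_padicPlace_iff`, `mem_nonunits_smul_padicPlace_iff`, `valuation_smul_padicPlace_*`;
* `exists_norm_model` : the existence statement (all four forms at once);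
* `forall_liesOverPrime_iff` : `(∀ A over q, P A) ↔ ∀ g, P (g • padicPlace q)`.
No sorry.
-/
import Mathlib
import Fermat.Agent.S55.UnrBridge42.Global

set_option autoImplicit false
set_option linter.style.haveILetI false
set_option linter.unusedSectionVars false
set_option synthInstance.maxHeartbeats 200000

open scoped NumberField Pointwise
open Fermat.Agent.Lib.FrobeniusExists Fermat.Agent.Lib.InertiaGenerate

noncomputable section

namespace Fermat.Agent.S55.UnrBridge42

variable (q : ℕ) [Fact q.Prime]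

theorem mem_smul_padicPlace_iff (g : GQ) (y : Qb) :
    y ∈ g • padicPlace q ↔ ‖padicEmbedding q ((g⁻¹ : GQ) y)‖ ≤ 1 := by
  rw [ValuationSubring.mem_pointwise_smul_iff_inv_smul_mem, AlgEquiv.smul_def,
    mem_padicPlace_iff_norm]

theorem mem_nonunits_smul_padicPlace_iff (g : GQ) (y : Qb) :
    y ∈ (g • padicPlace q).nonunits ↔ ‖padicEmbedding q ((g⁻¹ : GQ) y)‖ < 1 := by
  rw [mem_nonunits_smul_iff, mem_nonunits_padicPlace_iff]

theorem valuation_smul_padicPlace_le_one_iff (g : GQ) (y : Qb) :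
    (g • padicPlace q).valuation y ≤ 1 ↔ ‖padicEmbedding q ((g⁻¹ : GQ) y)‖ ≤ 1 := by
  rw [ValuationSubring.valuation_le_one_iff, mem_smul_padicPlace_iff]

theorem valuation_smul_padicPlace_lt_one_iff (g : GQ) (y : Qb) :
    (g • padicPlace q).valuation y < 1 ↔ ‖padicEmbedding q ((g⁻¹ : GQ) y)‖ < 1 := by
  rw [← ValuationSubring.mem_nonunits_iff, mem_nonunits_smul_padicPlace_iff]

theorem valuation_smul_padicPlace_eq_one_iff (g : GQ) (y : Qb) :
    (g • padicPlace q).valuation y = 1 ↔ ‖padicEmbedding q ((g⁻¹ : GQ) y)‖ = 1 := by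
  constructor
  · intro h
    refine le_antisymm ((valuation_smul_padicPlace_le_one_iff q g y).mp h.le) ?_
    by_contra hlt
    exact absurd ((valuation_smul_padicPlace_lt_one_iff q g y).mpr (not_le.mp hlt)) (not_lt.mpr h.ge)
  · intro h
    refine le_antisymm ((valuation_smul_padicPlace_le_one_iff q g y).mpr h.le) ?_
    by_contra hlt
    exact absurd ((valuation_smul_padicPlace_lt_one_iff q g y).mp (not_le.mp hlt)) (not_lt.mpr h.ge)

/-- **Norm model of a valuation subring of `ℚ̄` over `q`.** -/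
theorem exists_norm_model (A : ValuationSubring Qb) (hA : A.LiesOverPrime q) :
    ∃ g : GQ, g⁻¹ • padicPlace q = A ∧
      (∀ y : Qb, y ∈ A ↔ ‖padicEmbedding q (g y)‖ ≤ 1) ∧
      (∀ y : Qb, y ∈ A.nonunits ↔ ‖padicEmbedding q (g y)‖ < 1) ∧
      (∀ y : Qb, A.valuation y ≤ 1 ↔ ‖padicEmbedding q (g y)‖ ≤ 1) ∧
      (∀ y : Qb, A.valuation y < 1 ↔ ‖padicEmbedding q (g y)‖ < 1) ∧
      (∀ y : Qb, A.valuation y = 1 ↔ ‖padicEmbedding q (g y)‖ = 1) := by
  obtain ⟨g₀, hg₀⟩ := exists_smul_eq_of_liesOverPrime (Fact.out : q.Prime) (padicPlace q) A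
    (liesOverPrime_padicPlace q) hA
  refine ⟨g₀⁻¹, by rw [inv_inv, hg₀], ?_, ?_, ?_, ?_, ?_⟩
  · intro y; rw [← hg₀, mem_smul_padicPlace_iff]
  · intro y; rw [← hg₀, mem_nonunits_smul_padicPlace_iff]
  · intro y; rw [← hg₀, valuation_smul_padicPlace_le_one_iff]
  · intro y; rw [← hg₀, valuation_smul_padicPlace_lt_one_iff]
  · intro y; rw [← hg₀, valuation_smul_padicPlace_eq_one_iff]

/-- Quantifying over the valuation subrings over `q` = quantifying over `G_ℚ`. -/
theorem forall_liesOverPrime_iff (P : ValuationSubring Qb → Prop) :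
    (∀ A : ValuationSubring Qb, A.LiesOverPrime q → P A) ↔ ∀ g : GQ, P (g • padicPlace q) := by
  constructor
  · intro h g
    exact h _ (liesOverPrime_smul (liesOverPrime_padicPlace q) g)
  · intro h A hA
    obtain ⟨g, hg⟩ := exists_smul_eq_of_liesOverPrime (Fact.out : q.Prime) (padicPlace q) A
      (liesOverPrime_padicPlace q) hA
    rw [← hg]
    exact h g

end Fermat.Agent.S55.UnrBridge42
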